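import Fermat.Agent.S49.ModThree
import Fermat.Prelude.Def_CuspForm_HeckeAlgebra
import Fermat.Prelude.Def_CuspForm_IntegralStructure
import Fermat.Prelude.Thm_CuspForm_intLattice_fg
import Fermat.Prelude.Thm_CuspForm_mem_intLattice_of_mem_heckeAlgebra

set_option autoImplicit false

open CongruenceSubgroup ModularFormClass UpperHalfPlane EisensteinWeightOne

namespace Fermat.Agent.S49

variable {N : ℕ} {k : ℤ}

theorem qCoeff_zsmul (c : ℤ) (g : CuspForm (Gamma0 N) k) (n : ℕ) :
    qCoeff (⇑(c • g : CuspForm (Gamma0 N) k)) n = c * qCoeff g n := by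
  rw [← Int.cast_smul_eq_zsmul ℂ c g, qCoeff_smul]

theorem mem_intLattice_iff (g : CuspForm (Gamma0 N) k) :
    g ∈ CuspForm.intLattice N k ↔ ∀ n : ℕ, ∃ m : ℤ, qCoeff g n = (m : ℂ) := by
  constructor
  · intro hg
    unfold CuspForm.intLattice at hg
    induction hg using Submodule.span_induction with
    | mem x hx => exact hx
    | zero =>
      intro n
      refine ⟨0, ?_⟩
      have := qCoeff_smul (0 : ℂ) (0 : CuspForm (Gamma0 N) k) n
      simpa using this
    | add x y _ _ hx hy =>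
      intro n
      obtain ⟨a, ha⟩ := hx n
      obtain ⟨b, hb⟩ := hy n
      exact ⟨a + b, by rw [qCoeff_add, ha, hb]; push_cast; ring⟩
    | smul c x _ hx =>
      intro n
      obtain ⟨a, ha⟩ := hx n
      exact ⟨c * a, by rw [qCoeff_zsmul, ha]; push_cast; ring⟩
  · intro h
    exact Submodule.subset_span h

theorem span_intLattice_eq_top (h : CuspForm.HasIntegralBasis N) :
    Submodule.span ℂ ((CuspForm.intLattice N 2 : Submodule ℤ (CuspForm (Gamma0 N) 2)) :
      Set (CuspForm (Gamma0 N) 2)) = ⊤ := by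
  rw [eq_top_iff, ← h]
  apply Submodule.span_mono
  intro f hf
  rw [SetLike.mem_coe, mem_intLattice_iff]
  intro n
  obtain ⟨m, hm⟩ := Subring.mem_bot.1 (hf n)
  exact ⟨m, hm.symm⟩

theorem finiteDimensional_of_basis [NeZero N] (h : CuspForm.HasIntegralBasis N) :
    FiniteDimensional ℂ (CuspForm (Gamma0 N) 2) := by
  obtain ⟨s, hs⟩ := CuspForm.intLattice_fg N 2
  refine ⟨⟨s, ?_⟩⟩
  rw [eq_top_iff, ← span_intLattice_eq_top h, Submodule.span_le, ← hs]
  intro x hx
  exact Submodule.span_subset_span ℤ ℂ _ hx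

end Fermat.Agent.S49
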