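import Mathlib
import Fermat.Prelude.Def_FLTPrelim_Modularity
import Fermat.Prelude.Def_FormalHecke_Eigensystem
import Fermat.Prelude.Def_ModularForm_HeckeOperatorForms
import Fermat.Prelude.Thm_ModularFormClass_qCoeff_heckeT
import Fermat.Prelude.Thm_ModularFormClass_qCoeff_heckeU
import Fermat.Prelude.Thm_CongruenceSubgroup_one_mem_strictPeriods_Gamma0

set_option autoImplicit false

open CongruenceSubgroup ModularFormClass UpperHalfPlane

namespace Fermat.Agent.S49

section Formal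

variable {R : Type*} [CommRing R]

/-- prime power step of multiplicativity -/
theorem formal_prime_pow_mul {e a : ℕ → R} (h : FormalHecke.IsEigensystem e a)
    {p : ℕ} (hp : p.Prime) (n : ℕ) (hn : ¬ p ∣ n) :
    ∀ k : ℕ, a (p ^ k * n) = a (p ^ k) * a n ∧ a (p ^ (k + 1) * n) = a (p ^ (k + 1)) * a n := by
  intro k
  induction k with
  | zero =>
    refine ⟨by simp [h.1], ?_⟩
    have := h.2 p hp n
    rw [if_neg hn, mul_zero, add_zero] at this
    simpa using this
  | succ k ih =>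
    refine ⟨ih.2, ?_⟩
    have h1 := h.2 p hp (p ^ (k + 1) * n)
    have h2 := h.2 p hp (p ^ (k + 1))
    have d1 : p ∣ p ^ (k + 1) * n := Dvd.dvd.mul_right (dvd_pow_self p (Nat.succ_ne_zero k)) n
    have d2 : p ∣ p ^ (k + 1) := dvd_pow_self p (Nat.succ_ne_zero k)
    have q1 : p ^ (k + 1) * n / p = p ^ k * n := by
      rw [pow_succ, mul_assoc, mul_comm p n, ← mul_assoc]
      exact Nat.mul_div_cancel _ hp.pos
    have q2 : p ^ (k + 1) / p = p ^ k := by
      rw [pow_succ]; exact Nat.mul_div_cancel _ hp.pos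
    rw [if_pos d1, q1] at h1
    rw [if_pos d2, q2] at h2
    have e1 : p ^ (k + 1 + 1) * n = p * (p ^ (k + 1) * n) := by ring
    have e2 : p ^ (k + 1 + 1) = p * p ^ (k + 1) := by ring
    rw [e1, e2]
    have h1' : a (p * (p ^ (k + 1) * n)) = a p * a (p ^ (k + 1) * n) - e p * a (p ^ k * n) := by
      rw [← h1]; ring
    have h2' : a (p * p ^ (k + 1)) = a p * a (p ^ (k + 1)) - e p * a (p ^ k) := by
      rw [← h2]; ring
    rw [h1', h2', ih.1, ih.2]; ring

theorem formal_isRecursive {e a : ℕ → R} (h : FormalHecke.IsEigensystem e a) :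
    FormalHecke.IsRecursive e a := by
  refine ⟨h.1, ?_, ?_⟩
  · intro m
    induction m using Nat.recOnPrimeCoprime with
    | zero =>
      intro n hn
      have : n = 1 := by simpa using hn
      subst this
      simp [h.1]
    | prime_pow p k hp =>
      intro n hn
      rcases Nat.eq_zero_or_pos k with rfl | hk
      · simp [h.1]
      · have hpn : ¬ p ∣ n := by
          intro hd
          have : Nat.Coprime p n := Nat.Coprime.coprime_dvd_left (dvd_pow_self p hk.ne') hn
          exact hp.one_lt.ne' (Nat.Coprime.eq_one_of_dvd this hd)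
        exact (formal_prime_pow_mul h hp n hpn k).1
    | coprime x y hx hy hxy ihx ihy =>
      intro n hn
      have hxn : Nat.Coprime x n := Nat.Coprime.coprime_mul_right hn
      have hyn : Nat.Coprime y n := Nat.Coprime.coprime_mul_left hn
      rw [mul_assoc, ihx (y * n) (Nat.Coprime.mul_right hxy hxn), ihy n hyn, ihx y hxy, mul_assoc]
  · intro ℓ r hℓ
    have h2 := h.2 ℓ hℓ (ℓ ^ (r + 1))
    have d2 : ℓ ∣ ℓ ^ (r + 1) := dvd_pow_self ℓ (Nat.succ_ne_zero r)
    have q2 : ℓ ^ (r + 1) / ℓ = ℓ ^ r := by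
      rw [pow_succ]; exact Nat.mul_div_cancel _ hℓ.pos
    rw [if_pos d2, q2] at h2
    have e2 : ℓ ^ (r + 2) = ℓ * ℓ ^ (r + 1) := by ring
    rw [e2, ← h2]; ring

/-- vanishing of all positive coefficients from vanishing of the first -/
theorem formal_eq_zero_of_one {e lam c : ℕ → R}
    (hrel : ∀ ℓ : ℕ, ℓ.Prime → ∀ n : ℕ,
      c (ℓ * n) + e ℓ * (if ℓ ∣ n then c (n / ℓ) else 0) = lam ℓ * c n)
    (h1 : c 1 = 0) : ∀ n : ℕ, 0 < n → c n = 0 := by
  intro n
  induction n using Nat.strong_induction_on with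
  | _ n ih =>
    intro hn
    rcases Nat.lt_or_ge 1 n with h | h
    · obtain ⟨p, hp, m, rfl⟩ := Nat.exists_prime_and_dvd h.ne'
      have hm : 0 < m := Nat.pos_of_mul_pos_left hn |> fun _ => by
        rcases Nat.eq_zero_or_pos m with rfl | h'
        · simp at hn
        · exact h'
      have hlt : m < p * m := by
        have := hp.one_lt
        nlinarith
      have hr := hrel p hp m
      rw [ih m hlt hm, mul_zero] at hr
      by_cases hd : p ∣ m
      · rw [if_pos hd] at hr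
        have hpos : 0 < m / p := Nat.div_pos (Nat.le_of_dvd hm hd) hp.pos
        have hlt' : m / p < p * m := lt_of_le_of_lt (Nat.div_le_self m p) hlt
        rw [ih (m / p) hlt' hpos, mul_zero, add_zero] at hr
        exact hr
      · rw [if_neg hd, mul_zero, add_zero] at hr
        exact hr
    · have : n = 1 := by omega
      subst this; exact h1

end Formal

section QCoeff

variable {N : ℕ} {k : ℤ}

theorem qCoeff_smul (c : ℂ) (g : CuspForm (Gamma0 N) k) (n : ℕ) :
    qCoeff (⇑(c • g : CuspForm (Gamma0 N) k)) n = c * qCoeff g n := by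
  unfold qCoeff
  have := ModularForm.qExpansion_smul (h := 1) one_pos (one_mem_strictPeriods_Gamma0 N) c g
  rw [FunLike.coe_smul, this]
  simp

theorem qCoeff_add (f g : CuspForm (Gamma0 N) k) (n : ℕ) :
    qCoeff (⇑(f + g : CuspForm (Gamma0 N) k)) n = qCoeff f n + qCoeff g n := by
  unfold qCoeff
  have := ModularForm.qExpansion_add (h := 1) one_pos (one_mem_strictPeriods_Gamma0 N) f g
  rw [FunLike.coe_add, this]
  simp

theorem qCoeff_sub (f g : CuspForm (Gamma0 N) k) (n : ℕ) :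
    qCoeff (⇑(f - g : CuspForm (Gamma0 N) k)) n = qCoeff f n - qCoeff g n := by
  unfold qCoeff
  have := ModularForm.qExpansion_sub (h := 1) one_pos (one_mem_strictPeriods_Gamma0 N) f g
  rw [FunLike.coe_sub, this]
  simp

theorem qCoeff_idx_zero (g : CuspForm (Gamma0 N) k) : qCoeff g 0 = 0 :=
  CuspFormClass.qExpansion_coeff_zero g one_pos (one_mem_strictPeriods_Gamma0 N)

theorem qCoeff_heckeTLin {p : ℕ} (hp : p.Prime) (hpN : ¬ p ∣ N) (g : CuspForm (Gamma0 N) k) (n : ℕ) :
    qCoeff (CuspForm.heckeTLin k hp hpN g) n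
      = qCoeff g (n * p) + if p ∣ n then (p : ℂ) ^ (k - 1) * qCoeff g (n / p) else 0 := by
  rw [CuspForm.coe_heckeTLin_apply, ModularFormClass.qCoeff_heckeT g (one_mem_strictPeriods_Gamma0 N) hp.ne_zero]
  rfl

theorem qCoeff_heckeULin [NeZero N] {p : ℕ} (hp : p ≠ 0) (hpN : p ∣ N) (g : CuspForm (Gamma0 N) k) (n : ℕ) :
    qCoeff (CuspForm.heckeULin k hpN g) n = qCoeff g (n * p) := by
  rw [CuspForm.coe_heckeULin_apply, ModularFormClass.qCoeff_heckeU g (one_mem_strictPeriods_Gamma0 N) hp]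
  rfl

theorem eq_zero_of_qCoeff (g : CuspForm (Gamma0 N) k) (h : ∀ n, qCoeff g n = 0) : g = 0 := by
  have hΓ := one_mem_strictPeriods_Gamma0 N
  have : Fact (IsCusp OnePoint.infty (Subgroup.map (Matrix.SpecialLinearGroup.mapGL ℝ) (Gamma0 N))) :=
    ⟨Subgroup.isCusp_of_mem_strictPeriods one_pos hΓ⟩
  have h0 : qExpansion 1 g = 0 := by
    ext n; simpa [qCoeff] using h n
  have := (UpperHalfPlane.qExpansion_eq_zero_iff (h := 1) one_pos
    (SlashInvariantFormClass.periodic_comp_ofComplex g hΓ) (CuspFormClass.holo g)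
    (ModularFormClass.bdd_at_infty g)).1 h0
  exact DFunLike.coe_injective this

end QCoeff

section Normalized

variable {N : ℕ} 

theorem exists_normalized [NeZero N] (g : CuspForm (Gamma0 N) 2) (hg : g ≠ 0) (lam : ℕ → ℂ)
    (hT : ∀ (ℓ : ℕ) (hℓ : ℓ.Prime) (hℓN : ¬ ℓ ∣ N), CuspForm.heckeTLin 2 hℓ hℓN g = lam ℓ • g)
    (hU : ∀ (q : ℕ) (_ : q.Prime) (hqN : q ∣ N), CuspForm.heckeULin 2 hqN g = lam q • g) :
    ∃ f : CuspForm (Gamma0 N) 2, f.IsNormalizedEigenform ∧ ∀ ℓ : ℕ, ℓ.Prime → qCoeff f ℓ = lam ℓ := by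
  set e : ℕ → ℂ := fun ℓ => if ℓ ∣ N then 0 else (ℓ : ℂ) with he
  have hrel : ∀ (c : ℂ) (ℓ : ℕ), ℓ.Prime → ∀ n : ℕ,
      (c * qCoeff g (ℓ * n)) + e ℓ * (if ℓ ∣ n then (c * qCoeff g (n / ℓ)) else 0)
        = lam ℓ * (c * qCoeff g n) := by
    intro c ℓ hℓ n
    by_cases hℓN : ℓ ∣ N
    · have h1 := congrArg (fun F : CuspForm (Gamma0 N) 2 => qCoeff F n) (hU ℓ hℓ hℓN)
      simp only [qCoeff_heckeULin hℓ.ne_zero hℓN, qCoeff_smul] at h1
      simp only [he, if_pos hℓN, zero_mul, add_zero]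
      rw [mul_comm ℓ n, h1]; ring
    · have h1 := congrArg (fun F : CuspForm (Gamma0 N) 2 => qCoeff F n) (hT ℓ hℓ hℓN)
      simp only [qCoeff_heckeTLin hℓ hℓN, qCoeff_smul] at h1
      simp only [he, if_neg hℓN]
      have h2 : ((ℓ : ℂ) ^ ((2 : ℤ) - 1)) = ℓ := by norm_num
      rw [h2] at h1
      rw [mul_comm ℓ n]
      split_ifs at h1 ⊢ with hd
      · linear_combination c * h1
      · linear_combination c * h1
  have h1 : qCoeff g 1 ≠ 0 := by
    intro h1
    apply hg
    apply eq_zero_of_qCoeff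
    intro n
    rcases Nat.eq_zero_or_pos n with rfl | hn
    · exact qCoeff_idx_zero g
    · refine formal_eq_zero_of_one (e := e) (lam := lam) (c := fun n => qCoeff g n) ?_ h1 n hn
      intro ℓ hℓ n
      simpa using hrel 1 ℓ hℓ n
  set c : ℂ := (qCoeff g 1)⁻¹ with hc
  have hq : ∀ n, qCoeff (⇑(c • g : CuspForm (Gamma0 N) 2)) n = c * qCoeff g n := qCoeff_smul c g
  have hone : qCoeff (⇑(c • g : CuspForm (Gamma0 N) 2)) 1 = 1 := by
    rw [hq, hc, inv_mul_cancel₀ h1]
  have hlam : ∀ ℓ : ℕ, ℓ.Prime → qCoeff (⇑(c • g : CuspForm (Gamma0 N) 2)) ℓ = lam ℓ := by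
    intro ℓ hℓ
    have := hrel c ℓ hℓ 1
    rw [if_neg (by simpa using hℓ.one_lt.ne'), mul_zero, add_zero, mul_one, ← hq, ← hq, hone,
      mul_one] at this
    exact this
  have heig : FormalHecke.IsEigensystem e (fun n => qCoeff (⇑(c • g : CuspForm (Gamma0 N) 2)) n) := by
    refine ⟨hone, ?_⟩
    intro ℓ hℓ n
    simp only [hlam ℓ hℓ]
    simp only [hq]
    exact hrel c ℓ hℓ n
  obtain ⟨r1, r2, r3⟩ := formal_isRecursive heig
  refine ⟨c • g, ⟨r1, r2, ?_, ?_⟩, hlam⟩
  · intro p r hp hpN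
    have := r3 p r hp
    simpa [he, if_neg hpN] using this
  · intro p r hp hpN
    have := r3 p r hp
    simpa [he, if_pos hpN] using this

end Normalized

end Fermat.Agent.S49
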