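import Mathlib

set_option autoImplicit false

namespace Fermat.Agent.S49

theorem exists_eigenvector_aux {K V R : Type*} [Field K] [IsAlgClosed K] [AddCommGroup V]
    [Module K V] [FiniteDimensional K V] [CommRing R] (ρ : R →+* Module.End K V)
    (𝔫 : Ideal R) [h𝔫 : 𝔫.IsPrime] :
    ∀ (d : ℕ) (W : Submodule K V), Module.finrank K W = d →
      (∀ t, ∀ w ∈ W, ρ t w ∈ W) → (∀ s, (∀ w ∈ W, ρ s w = 0) → s ∈ 𝔫) →
      ∃ v ∈ W, v ≠ 0 ∧ ∃ χ : R → K, (∀ t, ρ t v = χ t • v) ∧ ∀ t, χ t = 0 → t ∈ 𝔫 := by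
  intro d
  induction d using Nat.strong_induction_on with
  | _ d ih =>
  intro W hd hst hfaith
  have hWbot : W ≠ ⊥ := by
    rintro rfl
    apply h𝔫.ne_top
    rw [Ideal.eq_top_iff_one]
    apply hfaith
    intro w hw
    rw [Submodule.mem_bot] at hw
    simp [hw]
  by_cases hsc : ∀ t, ∃ c : K, ∀ w ∈ W, ρ t w = c • w
  · choose χ hχ using hsc
    obtain ⟨v, hvW, hv0⟩ := Submodule.exists_mem_ne_zero_of_ne_bot hWbot
    refine ⟨v, hvW, hv0, χ, fun t => hχ t v hvW, fun t ht => hfaith t fun w hw => ?_⟩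
    rw [hχ t w hw, ht, zero_smul]
  · push Not at hsc
    obtain ⟨t₀, ht₀⟩ := hsc
    have : Nontrivial W := Submodule.nontrivial_iff_ne_bot.2 hWbot
    obtain ⟨μ, hμ⟩ := Module.End.exists_eigenvalue ((ρ t₀).restrict (hst t₀))
    obtain ⟨w₀, hw₀⟩ := hμ.exists_hasEigenvector
    have hw₀e : ρ t₀ (w₀ : V) = μ • (w₀ : V) := by
      have := hw₀.apply_eq_smul
      exact congrArg Subtype.val this
    have hw₀0 : (w₀ : V) ≠ 0 := fun h => hw₀.2 (Subtype.ext h)
    set u : Module.End K V := ρ t₀ - algebraMap K _ μ with hu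
    have hu_apply : ∀ w, u w = ρ t₀ w - μ • w := fun w => by
      simp [hu, Module.algebraMap_end_apply]
    have hcomm : ∀ t w, u (ρ t w) = ρ t (u w) := by
      intro t w
      rw [hu_apply, hu_apply, map_sub, map_smul]
      congr 1
      rw [← Module.End.mul_apply, ← Module.End.mul_apply, ← map_mul, ← map_mul, mul_comm]
    obtain ⟨w₁, hw₁W, hw₁⟩ := ht₀ μ
    -- first subspace
    have hW'lt : W ⊓ LinearMap.ker u < W := by
      refine lt_of_le_of_ne inf_le_left fun h => hw₁ ?_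
      have : w₁ ∈ W ⊓ LinearMap.ker u := by rw [h]; exact hw₁W
      have h2 := (Submodule.mem_inf.1 this).2
      rw [LinearMap.mem_ker, hu_apply, sub_eq_zero] at h2
      exact h2
    have hW'st : ∀ t, ∀ w ∈ W ⊓ LinearMap.ker u, ρ t w ∈ W ⊓ LinearMap.ker u := by
      intro t w hw
      rw [Submodule.mem_inf] at hw ⊢
      refine ⟨hst t w hw.1, ?_⟩
      rw [LinearMap.mem_ker, hcomm, LinearMap.mem_ker.1 hw.2, map_zero]
    have hW''le : W.map u ≤ W := by
      rintro _ ⟨w, hw, rfl⟩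
      rw [hu_apply]
      exact W.sub_mem (hst t₀ w hw) (W.smul_mem μ hw)
    have hW''st : ∀ t, ∀ w ∈ W.map u, ρ t w ∈ W.map u := by
      rintro t _ ⟨w, hw, rfl⟩
      exact ⟨ρ t w, hst t w hw, hcomm t w⟩
    have hW''lt : Module.finrank K (W.map u) < Module.finrank K W := by
      have h1 := LinearMap.finrank_range_add_finrank_ker (u.domRestrict W)
      rw [LinearMap.range_domRestrict] at h1
      have h2 : 0 < Module.finrank K (LinearMap.ker (u.domRestrict W)) := by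
        rw [Module.finrank_pos_iff, Submodule.nontrivial_iff_ne_bot]
        intro hb
        have : w₀ ∈ LinearMap.ker (u.domRestrict W) := by
          rw [LinearMap.mem_ker, LinearMap.domRestrict_apply, hu_apply, hw₀e, sub_self]
        rw [hb, Submodule.mem_bot] at this
        exact hw₀.2 this
      omega
    by_cases h' : ∀ s, (∀ w ∈ W ⊓ LinearMap.ker u, ρ s w = 0) → s ∈ 𝔫
    · obtain ⟨v, hv, rest⟩ := ih _ (hd ▸ Submodule.finrank_lt_finrank_of_lt hW'lt) _ rfl hW'st h'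
      exact ⟨v, hv.1, rest⟩
    · push Not at h'
      obtain ⟨s₁, hs₁, hs₁n⟩ := h'
      have h'' : ∀ s, (∀ w ∈ W.map u, ρ s w = 0) → s ∈ 𝔫 := by
        intro s₂ hs₂
        have : s₁ * s₂ ∈ 𝔫 := by
          apply hfaith
          intro w hw
          rw [map_mul, Module.End.mul_apply]
          apply hs₁
          rw [Submodule.mem_inf]
          refine ⟨hst s₂ w hw, ?_⟩
          rw [LinearMap.mem_ker, hcomm]
          exact hs₂ _ ⟨w, hw, rfl⟩
        exact (h𝔫.mem_or_mem this).resolve_left hs₁n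
      obtain ⟨v, hv, rest⟩ := ih _ (hd ▸ hW''lt) _ rfl hW''st h''
      exact ⟨v, hW''le hv, rest⟩

theorem exists_eigenvector_of_prime {K V R : Type*} [Field K] [IsAlgClosed K] [AddCommGroup V]
    [Module K V] [FiniteDimensional K V] [CommRing R] (ρ : R →+* Module.End K V)
    (𝔫 : Ideal R) [𝔫.IsPrime] (hfaith : ∀ s, ρ s = 0 → s ∈ 𝔫) :
    ∃ v : V, v ≠ 0 ∧ ∃ χ : R → K, (∀ t, ρ t v = χ t • v) ∧ ∀ t, χ t = 0 → t ∈ 𝔫 := by
  obtain ⟨v, -, h⟩ := exists_eigenvector_aux ρ 𝔫 _ ⊤ rfl (fun _ _ _ => Submodule.mem_top)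
    (fun s hs => hfaith s (LinearMap.ext fun w => by simpa using hs w Submodule.mem_top))
  exact ⟨v, h⟩

end Fermat.Agent.S49
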