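import Fermat.Agent.S49.Integral

set_option autoImplicit false

open CongruenceSubgroup ModularFormClass UpperHalfPlane EisensteinWeightOne

namespace Fermat.Agent.S49

variable {N : ℕ} [NeZero N]

/-- operators sending `f` into three times the lattice -/
def threeIdeal (f : CuspForm (Gamma0 N) 2) : Ideal (CuspForm.heckeAlgebra N 2 ∅) where
  carrier := {t | ∃ g ∈ CuspForm.intLattice N 2,
    (t : Module.End ℂ (CuspForm (Gamma0 N) 2)) f = (3 : ℂ) • g}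
  zero_mem' := ⟨0, Submodule.zero_mem _, by simp⟩
  add_mem' := by
    rintro a b ⟨g₁, hg₁, h₁⟩ ⟨g₂, hg₂, h₂⟩
    refine ⟨g₁ + g₂, Submodule.add_mem _ hg₁ hg₂, ?_⟩
    rw [Subalgebra.coe_add, LinearMap.add_apply, h₁, h₂, smul_add]
  smul_mem' := by
    rintro s t ⟨g, hg, h⟩
    refine ⟨(s : Module.End ℂ (CuspForm (Gamma0 N) 2)) g,
      CuspForm.mem_intLattice_of_mem_heckeAlgebra (by norm_num) s.2 hg, ?_⟩
    rw [smul_eq_mul, Subalgebra.coe_mul, Module.End.mul_apply, h, map_smul]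

theorem mem_threeIdeal {f : CuspForm (Gamma0 N) 2} {t : CuspForm.heckeAlgebra N 2 ∅} :
    t ∈ threeIdeal f ↔ ∃ g ∈ CuspForm.intLattice N 2,
      (t : Module.End ℂ (CuspForm (Gamma0 N) 2)) f = (3 : ℂ) • g := Iff.rfl

theorem mem_threeIdeal_of_qCoeff {f : CuspForm (Gamma0 N) 2} {t : CuspForm.heckeAlgebra N 2 ∅}
    (h : ∀ n : ℕ, ∃ m : ℤ,
      qCoeff (⇑((t : Module.End ℂ (CuspForm (Gamma0 N) 2)) f)) n = 3 * (m : ℂ)) :
    t ∈ threeIdeal f := by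
  refine ⟨(3 : ℂ)⁻¹ • (t : Module.End ℂ (CuspForm (Gamma0 N) 2)) f, ?_, ?_⟩
  · rw [mem_intLattice_iff]
    intro n
    obtain ⟨m, hm⟩ := h n
    refine ⟨m, ?_⟩
    rw [qCoeff_smul, hm]
    field_simp
  · rw [smul_smul, mul_inv_cancel₀ (by norm_num), one_smul]

theorem intCast_apply (m : ℤ) (f : CuspForm (Gamma0 N) 2) :
    (((m : CuspForm.heckeAlgebra N 2 ∅) : Module.End ℂ (CuspForm (Gamma0 N) 2))) f
      = (m : ℂ) • f := by
  have h : ((m : CuspForm.heckeAlgebra N 2 ∅) : Module.End ℂ (CuspForm (Gamma0 N) 2)) = (m : Module.End ℂ (CuspForm (Gamma0 N) 2)) := rfl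
  rw [h, Module.End.intCast_apply, Int.cast_smul_eq_zsmul]

theorem three_dvd_of_intCast_mem {f : CuspForm (Gamma0 N) 2} {af : ℕ → ℤ}
    (haf : ∀ n, qCoeff f n = (af n : ℂ)) (h1 : ¬ (3 : ℤ) ∣ af 1) {m : ℤ}
    (hm : (m : CuspForm.heckeAlgebra N 2 ∅) ∈ threeIdeal f) : (3 : ℤ) ∣ m := by
  obtain ⟨g, hg, h⟩ := hm
  rw [intCast_apply] at h
  obtain ⟨b, hb⟩ := (mem_intLattice_iff g).1 hg 1
  have h2 := congrArg (fun F : CuspForm (Gamma0 N) 2 => qCoeff F 1) h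
  simp only [qCoeff_smul, haf, hb] at h2
  have h3 : m * af 1 = 3 * b := by exact_mod_cast h2
  have h4 : (3 : ℤ) ∣ m * af 1 := ⟨b, h3⟩
  exact (Int.prime_three.dvd_or_dvd h4).resolve_right h1

theorem three_mem_threeIdeal {f : CuspForm (Gamma0 N) 2} {af : ℕ → ℤ}
    (haf : ∀ n, qCoeff f n = (af n : ℂ)) :
    ((3 : ℤ) : CuspForm.heckeAlgebra N 2 ∅) ∈ threeIdeal f := by
  refine ⟨f, (mem_intLattice_iff f).2 fun n => ⟨af n, haf n⟩, ?_⟩
  rw [intCast_apply]; norm_num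

theorem exists_int_sub_mem {f : CuspForm (Gamma0 N) 2} {a : ℕ → ℤ}
    (hT : ∀ (ℓ : ℕ) (hℓ : ℓ.Prime) (hℓN : ¬ ℓ ∣ N),
      (CuspForm.heckeAlgebra.T hℓ hℓN (Set.notMem_empty ℓ) - (a ℓ : CuspForm.heckeAlgebra N 2 ∅))
        ∈ threeIdeal f)
    (hU : ∀ (q : ℕ) (hq : q.Prime) (hqN : q ∣ N),
      (CuspForm.heckeAlgebra.U hq hqN (Set.notMem_empty q) - (a q : CuspForm.heckeAlgebra N 2 ∅))
        ∈ threeIdeal f)
    (t : CuspForm.heckeAlgebra N 2 ∅) :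
    ∃ m : ℤ, t - (m : CuspForm.heckeAlgebra N 2 ∅) ∈ threeIdeal f := by
  obtain ⟨t, ht⟩ := t
  unfold CuspForm.heckeAlgebra at ht
  induction ht using Algebra.adjoin_induction with
  | mem x hx =>
    rcases hx with ⟨ℓ, hℓ, hℓN, -, rfl⟩ | ⟨q, hqN, hq, -, rfl⟩
    · exact ⟨a ℓ, hT ℓ hℓ hℓN⟩
    · exact ⟨a q, hU q hq hqN⟩
  | algebraMap r =>
    refine ⟨r, ?_⟩
    convert (threeIdeal f).zero_mem using 1
    rw [sub_eq_zero]
    apply Subtype.ext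
    simp
  | add x y hx hy ihx ihy =>
    obtain ⟨m, hm⟩ := ihx
    obtain ⟨k, hk⟩ := ihy
    refine ⟨m + k, ?_⟩
    convert (threeIdeal f).add_mem hm hk using 1
    have : (⟨x + y, add_mem hx hy⟩ : CuspForm.heckeAlgebra N 2 ∅)
        = (⟨x, hx⟩ : CuspForm.heckeAlgebra N 2 ∅) + ⟨y, hy⟩ := rfl
    rw [this]
    push_cast
    ring
  | mul x y hx hy ihx ihy =>
    obtain ⟨m, hm⟩ := ihx
    obtain ⟨k, hk⟩ := ihy
    refine ⟨m * k, ?_⟩
    have h1 := (threeIdeal f).mul_mem_left ⟨y, hy⟩ hm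
    have h2 := (threeIdeal f).mul_mem_left (m : CuspForm.heckeAlgebra N 2 ∅) hk
    convert (threeIdeal f).add_mem h1 h2 using 1
    have : (⟨x * y, mul_mem hx hy⟩ : CuspForm.heckeAlgebra N 2 ∅)
        = (⟨x, hx⟩ : CuspForm.heckeAlgebra N 2 ∅) * ⟨y, hy⟩ := rfl
    rw [this]
    push_cast
    ring

end Fermat.Agent.S49
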