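import Fermat.Agent.S49.Lattice

set_option autoImplicit false

open CongruenceSubgroup ModularFormClass UpperHalfPlane EisensteinWeightOne

namespace Fermat.Agent.S49

variable {N : ℕ} [NeZero N]

/-- restriction of Hecke operators to the integral lattice -/
noncomputable def resLattice (S : Set ℕ) :
    CuspForm.heckeAlgebra N 2 S →+* Module.End ℤ (CuspForm.intLattice N 2) where
  toFun t := ((t : Module.End ℂ (CuspForm (Gamma0 N) 2)).restrictScalars ℤ).restrict
    (fun _ hx => CuspForm.mem_intLattice_of_mem_heckeAlgebra (by norm_num) t.2 hx)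
  map_one' := by ext; rfl
  map_mul' _ _ := by ext; rfl
  map_zero' := by ext; rfl
  map_add' _ _ := by ext; rfl

theorem resLattice_injective (h : CuspForm.HasIntegralBasis N) (S : Set ℕ) :
    Function.Injective (resLattice (N := N) S) := by
  rw [injective_iff_map_eq_zero]
  intro t ht
  apply Subtype.ext
  apply LinearMap.ext_on (span_intLattice_eq_top h)
  intro x hx
  have := congrArg (fun F : Module.End ℤ (CuspForm.intLattice N 2) => ((F ⟨x, hx⟩ : _) : CuspForm (Gamma0 N) 2)) ht
  exact this

theorem isIntegral_hecke (h : CuspForm.HasIntegralBasis N) (S : Set ℕ)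
    (t : CuspForm.heckeAlgebra N 2 S) : IsIntegral ℤ t := by
  have : Module.Finite ℤ (CuspForm.intLattice N 2) :=
    Module.Finite.iff_fg.2 (CuspForm.intLattice_fg N 2)
  have h1 : IsIntegral ℤ (resLattice S t) := Algebra.IsIntegral.isIntegral _
  exact (isIntegral_algHom_iff (resLattice (N := N) S).toIntAlgHom (resLattice_injective h S)).1 h1

end Fermat.Agent.S49
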