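import Fermat.Agent.S49.Normalize
import Fermat.Prelude.Def_CuspForm_IntegralLattice
import Fermat.Prelude.Def_ModularForm_EisensteinChiNegThree

set_option autoImplicit false

open CongruenceSubgroup ModularFormClass UpperHalfPlane EisensteinWeightOne

namespace Fermat.Agent.S49

theorem three_dvd_chi_sub (ℓ : ℕ) : (3 : ℤ) ∣ (ℓ : ℤ) - chiNegThree ℓ := by
  unfold chiNegThree
  have h3 : ℓ % 3 < 3 := Nat.mod_lt _ (by norm_num)
  split_ifs with h1 h2 <;> omega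

theorem three_dvd_bridge_sub (a : ℕ → ℤ) (n : ℕ) :
    (3 : ℤ) ∣ (bridgeProduct a).coeff n - a n := by
  have hE : e1Chi3In ℤ = 1 + PowerSeries.C (3 : ℤ) *
      PowerSeries.mk (fun n => if n = 0 then 0 else 2 * sigmaChi n) := by
    ext m
    unfold e1Chi3In e1Chi3
    rw [PowerSeries.coeff_map, PowerSeries.coeff_mk, map_add, PowerSeries.coeff_C_mul,
      PowerSeries.coeff_mk, PowerSeries.coeff_one]
    split_ifs
    · simp
    · simp; ring
  unfold bridgeProduct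
  rw [hE, mul_add, mul_one, map_add, PowerSeries.coeff_mk, mul_left_comm, PowerSeries.coeff_C_mul]
  simp

theorem modThree_data {N : ℕ} [NeZero N] {a : ℕ → ℤ}
    (heig : FormalHecke.IsEigensystem
      (fun ℓ => if ℓ ∣ N then 0 else ((chiNegThree ℓ : ℤ) : ℤ)) a)
    (hreal : CuspForm.IsLatticeRealized N a) :
    ∃ (f : CuspForm (Gamma0 N) 2) (af : ℕ → ℤ), (∀ n, qCoeff f n = (af n : ℂ)) ∧
      (¬ (3 : ℤ) ∣ af 1) ∧
      (∀ (ℓ : ℕ) (hℓ : ℓ.Prime) (hℓN : ¬ ℓ ∣ N) (n : ℕ), ∃ m : ℤ,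
        qCoeff (⇑(CuspForm.heckeTLin 2 hℓ hℓN f - (a ℓ : ℂ) • f : CuspForm (Gamma0 N) 2)) n
          = 3 * (m : ℂ)) ∧
      (∀ (q : ℕ) (_ : q.Prime) (hqN : q ∣ N) (n : ℕ), ∃ m : ℤ,
        qCoeff (⇑(CuspForm.heckeULin 2 hqN f - (a q : ℂ) • f : CuspForm (Gamma0 N) 2)) n
          = 3 * (m : ℂ)) := by
  obtain ⟨f, -, af, haf, hcong⟩ := hreal
  have hc : ∀ n, (3 : ℤ) ∣ af n - a n := fun n => by
    have := dvd_add (hcong n) (three_dvd_bridge_sub a n)
    simpa using this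
  refine ⟨f, af, fun n => (haf n).symm, ?_, ?_, ?_⟩
  · intro h
    have h1 := hc 1
    rw [heig.1] at h1
    have : (3 : ℤ) ∣ 1 := by
      have := dvd_sub h h1
      simpa using this
    omega
  · intro ℓ hℓ hℓN n
    rw [qCoeff_sub, qCoeff_smul, qCoeff_heckeTLin]
    have h2 : ((ℓ : ℂ) ^ ((2 : ℤ) - 1)) = ℓ := by norm_num
    rw [h2, ← haf, ← haf, ← haf]
    have hr := heig.2 ℓ hℓ n
    simp only [if_neg hℓN] at hr
    obtain ⟨x1, hx1⟩ := hc (n * ℓ)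
    obtain ⟨x2, hx2⟩ := hc (n / ℓ)
    obtain ⟨x3, hx3⟩ := hc n
    obtain ⟨x4, hx4⟩ := three_dvd_chi_sub ℓ
    rw [mul_comm ℓ n] at hr
    by_cases hd : ℓ ∣ n
    · rw [if_pos hd] at hr ⊢
      refine ⟨x1 + x4 * af (n / ℓ) + chiNegThree ℓ * x2 - a ℓ * x3, ?_⟩
      have : af (n * ℓ) + (ℓ : ℤ) * af (n / ℓ) - a ℓ * af n
          = 3 * (x1 + x4 * af (n / ℓ) + chiNegThree ℓ * x2 - a ℓ * x3) := by
        linear_combination hx1 + af (n / ℓ) * hx4 + chiNegThree ℓ * hx2 - a ℓ * hx3 + hr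
      exact_mod_cast this
    · rw [if_neg hd] at hr ⊢
      refine ⟨x1 - a ℓ * x3, ?_⟩
      have : af (n * ℓ) + 0 - a ℓ * af n = 3 * (x1 - a ℓ * x3) := by
        linear_combination hx1 - a ℓ * hx3 + hr
      exact_mod_cast this
  · intro q hq hqN n
    rw [qCoeff_sub, qCoeff_smul, qCoeff_heckeULin hq.ne_zero]
    rw [← haf, ← haf]
    have hr := heig.2 q hq n
    simp only [if_pos hqN, zero_mul, add_zero] at hr
    obtain ⟨x1, hx1⟩ := hc (n * q)
    obtain ⟨x3, hx3⟩ := hc n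
    rw [mul_comm q n] at hr
    refine ⟨x1 - a q * x3, ?_⟩
    have : af (n * q) - a q * af n = 3 * (x1 - a q * x3) := by
      linear_combination hx1 - a q * hx3 + hr
    exact_mod_cast this

end Fermat.Agent.S49
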